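import Mathlib.RingTheory.Depth.Rees
import Mathlib.RingTheory.Regular.Free
import Mathlib.RingTheory.Regular.IsSMulRegular
import Mathlib.RingTheory.Regular.RegularSequence
import Mathlib.RingTheory.Nakayama
import Mathlib.RingTheory.Ideal.AssociatedPrime.Finiteness
import Mathlib.LinearAlgebra.Basis.VectorSpace

/-!
# Modules of depth at least the embedding dimension are free

If `R` is a Noetherian local ring whose maximal ideal is generated by `n` elements and `M` is a
finite `R`-module with a weakly regular sequence of length `n` in the maximal ideal, then `M` is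
free.
-/

set_option autoImplicit false

universe u

namespace FLTAgent.CommAlg

open IsLocalRing RingTheory.Sequence CategoryTheory Abelian Pointwise Module

variable {R : Type u} [CommRing R] [IsLocalRing R] [IsNoetherianRing R]
  {M : Type u} [AddCommGroup M] [Module R M] [Module.Finite R M]

/-- An element of the maximal ideal, regular on `M`, not in the square of the maximal ideal. -/
theorem exists_isSMulRegular_notMem_sq [Nontrivial M] {a : R} (ha : a ∈ maximalIdeal R)
    (hreg : IsSMulRegular M a) :
    ∃ y ∈ maximalIdeal R, y ∉ maximalIdeal R ^ 2 ∧ IsSMulRegular M y := by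
  classical
  by_contra h
  push Not at h
  have hfin : (associatedPrimes R M).Finite := associatedPrimes.finite R M
  let s : Finset (Ideal R) := insert (maximalIdeal R ^ 2) hfin.toFinset
  have hsub : (maximalIdeal R : Set R) ⊆ ⋃ P ∈ (↑s : Set (Ideal R)), (id P : Ideal R) := by
    intro y hy
    rw [Set.mem_iUnion₂]
    by_cases hy2 : y ∈ maximalIdeal R ^ 2
    · exact ⟨maximalIdeal R ^ 2, by simp [s], hy2⟩
    · have hy3 : y ∈ ⋃ p ∈ associatedPrimes R M, (p : Set R) := by
        rw [biUnion_associatedPrimes_eq_compl_regular R M]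
        exact h y hy hy2
      rw [Set.mem_iUnion₂] at hy3
      obtain ⟨p, hp, hyp⟩ := hy3
      exact ⟨p, by simp [s, hp], hyp⟩
  have hprime : ∀ i ∈ s, i ≠ maximalIdeal R ^ 2 → i ≠ maximalIdeal R ^ 2 → Ideal.IsPrime (id i) := by
    intro i hi hne _
    rw [Finset.mem_insert, Set.Finite.mem_toFinset] at hi
    exact (hi.resolve_left hne).isPrime
  obtain ⟨P, hP, hle⟩ := (Ideal.subset_union_prime (f := id) _ _ hprime).mp hsub
  rw [Finset.mem_insert, Set.Finite.mem_toFinset] at hP
  rcases hP with rfl | hP
  · have hm : maximalIdeal R = ⊥ := by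
      refine Submodule.eq_bot_of_le_smul_of_le_jacobson_bot (maximalIdeal R) _
        (IsNoetherian.noetherian _) ?_ (maximalIdeal_le_jacobson _)
      rw [smul_eq_mul, ← pow_two]
      exact hle
    rw [hm, Submodule.mem_bot] at ha
    subst ha
    exact not_subsingleton M (IsSMulRegular.zero_iff_subsingleton.mp hreg)
  · have : a ∈ ⋃ p ∈ associatedPrimes R M, (p : Set R) := Set.mem_biUnion hP (hle ha)
    rw [biUnion_associatedPrimes_eq_compl_regular R M] at this
    exact this hreg

omit [IsNoetherianRing R] in
/-- An element outside the square of the maximal ideal can replace one of any finite set of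
generators. -/
theorem exists_erase_span_eq [DecidableEq R] {s : Finset R}
    (hs : Ideal.span (s : Set R) = maximalIdeal R)
    {y : R} (hy : y ∈ maximalIdeal R) (hy2 : y ∉ maximalIdeal R ^ 2) :
    ∃ i ∈ s, Ideal.span (insert y (s.erase i : Set R)) = maximalIdeal R := by
  have hy' : y ∈ Ideal.span (s : Set R) := hs ▸ hy
  obtain ⟨f, -, hf⟩ := Submodule.mem_span_finset.mp hy'
  obtain ⟨i, hi, hfi⟩ : ∃ i ∈ s, f i ∉ maximalIdeal R := by
    by_contra h
    push Not at h
    apply hy2
    rw [← hf]
    refine Ideal.sum_mem _ fun i hi => ?_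
    rw [smul_eq_mul, pow_two]
    exact Ideal.mul_mem_mul (h i hi) (hs ▸ Ideal.subset_span (Finset.mem_coe.mpr hi))
  refine ⟨i, hi, le_antisymm ?_ ?_⟩
  · rw [Ideal.span_le, Set.insert_subset_iff]
    exact ⟨hy, fun x hx => hs ▸ Ideal.subset_span (Finset.mem_coe.mpr (Finset.mem_of_mem_erase hx))⟩
  · rw [← hs, Ideal.span_le]
    intro x hx
    by_cases hxi : x = i
    · subst hxi
      have hu : IsUnit (f x) := notMem_maximalIdeal.mp hfi
      rw [SetLike.mem_coe, ← (Ideal.span _).unit_mul_mem_iff_mem hu]
      have : f x * x = y - ∑ j ∈ s.erase x, f j • j := by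
        rw [eq_sub_iff_add_eq, ← hf, ← Finset.add_sum_erase _ _ hi, smul_eq_mul]
      rw [this]
      refine Ideal.sub_mem _ (Ideal.subset_span (Set.mem_insert _ _)) (Ideal.sum_mem _ fun j hj => ?_)
      rw [smul_eq_mul]
      exact Ideal.mul_mem_left _ _ (Ideal.subset_span (Set.mem_insert_of_mem _ hj))
    · exact Ideal.subset_span (Set.mem_insert_of_mem _ (Finset.mem_erase.mpr ⟨hxi, hx⟩))

/-- Passing to the quotient by a regular element drops the length of a regular sequence by one. -/
theorem exists_isRegular_quotSMulTop [Nontrivial M] {rs : List R} {n : ℕ}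
    (hlen : rs.length = n + 1) (hmem : ∀ r ∈ rs, r ∈ maximalIdeal R) (hreg : IsWeaklyRegular M rs)
    {y : R} (hy : y ∈ maximalIdeal R) (hyreg : IsSMulRegular M y) :
    ∃ rs' : List R, rs'.length = n ∧ (∀ r ∈ rs', r ∈ maximalIdeal R) ∧
      IsRegular (QuotSMulTop y M) rs' := by
  let Mc : ModuleCat.{u} R := ModuleCat.of R M
  let k : ModuleCat.{u} R := ModuleCat.of R (R ⧸ maximalIdeal R)
  have hsupp : Module.support R k = PrimeSpectrum.zeroLocus (maximalIdeal R) := by
    show Module.support R (R ⧸ maximalIdeal R) = _
    rw [Module.support_eq_zeroLocus, Ideal.annihilator_quotient]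
  have hregular : IsRegular Mc rs :=
    IsRegular.of_isWeaklyRegular_of_mem_maximalIdeal M hmem hreg
  have hlt : ∀ (X : Type u) [AddCommGroup X] [Module R X] [Module.Finite R X] [Nontrivial X],
      maximalIdeal R • (⊤ : Submodule R X) < ⊤ := fun X _ _ _ _ =>
    (Submodule.top_ne_ideal_smul_of_le_jacobson_annihilator
      (maximalIdeal_le_jacobson _)).symm.lt_top
  have hzero := ModuleCat.subsingleton_ext_of_exists_isRegular (maximalIdeal R) k
    hsupp.subset Mc (hlt M) rs hmem hregular
  have hzero' : ∀ i < n, Subsingleton (Ext k (ModuleCat.of R (QuotSMulTop y M)) i) := by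
    intro i hi
    have zero1 := AddCommGrpCat.isZero_of_iff_subsingleton.mpr (hzero i (by omega))
    have zero2 := AddCommGrpCat.isZero_of_iff_subsingleton.mpr (hzero (i + 1) (by omega))
    exact AddCommGrpCat.subsingleton_of_isZero <| ShortComplex.Exact.isZero_of_both_zeros
      ((Ext.covariant_sequence_exact₃' k
        (IsSMulRegular.smulShortComplex_shortExact (M := Mc) hyreg)) i (i + 1) rfl)
      (zero1.eq_zero_of_src _) (zero2.eq_zero_of_tgt _)
  have : Nontrivial (QuotSMulTop y M) := nontrivial_quotSMulTop_of_mem_maximalIdeal M hy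
  exact ModuleCat.exists_isRegular_of_exists_subsingleton_ext (maximalIdeal R) n
    (ModuleCat.of R (QuotSMulTop y M)) (hlt _) k hsupp hzero'

omit R M in
/-- A finite module over a Noetherian local ring whose depth is at least the number of generators
of the maximal ideal is free. -/
theorem free_of_isWeaklyRegular_of_span_eq :
    ∀ (n : ℕ) (R : Type u) [CommRing R] [IsLocalRing R] [IsNoetherianRing R]
      (M : Type u) [AddCommGroup M] [Module R M] [Module.Finite R M]
      (s : Finset R), s.card ≤ n → Ideal.span (s : Set R) = maximalIdeal R →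
      ∀ rs : List R, rs.length = n → (∀ r ∈ rs, r ∈ maximalIdeal R) → IsWeaklyRegular M rs →
      Module.Free R M := by
  intro n
  induction n with
  | zero =>
    intro R _ _ _ M _ _ _ s hcard hs _ _ _ _
    rw [Finset.card_eq_zero.mp (Nat.le_zero.mp hcard), Finset.coe_empty, Ideal.span_empty] at hs
    let := (isField_iff_maximalIdeal_eq.mpr hs.symm).toField
    exact Module.Free.of_divisionRing R M
  | succ n ih =>
    intro R _ _ _ M _ _ _ s hcard hs rs hlen hmem hreg
    classical
    rcases subsingleton_or_nontrivial M with hM | hM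
    · exact Module.Free.of_subsingleton R M
    obtain ⟨a, rs₀, rfl⟩ : ∃ a rs₀, rs = a :: rs₀ := List.exists_cons_of_length_eq_add_one hlen
    obtain ⟨y, hy, hy2, hyreg⟩ := exists_isSMulRegular_notMem_sq (M := M)
      (hmem a List.mem_cons_self) ((isWeaklyRegular_cons_iff M a rs₀).mp hreg).1
    obtain ⟨i, hi, hspan⟩ := exists_erase_span_eq hs hy hy2
    obtain ⟨rs', hlen', hmem', hreg'⟩ := exists_isRegular_quotSMulTop hlen hmem hreg hy hyreg
    let q := Ideal.Quotient.mk (Ideal.span {y})
    have hne : Ideal.span {y} ≠ ⊤ := fun h =>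
      (mem_maximalIdeal y).mp hy (Ideal.span_singleton_eq_top.mp h)
    have : Nontrivial (R ⧸ Ideal.span {y}) := Ideal.Quotient.nontrivial_iff.mpr hne
    have : IsLocalRing (R ⧸ Ideal.span {y}) :=
      IsLocalRing.of_surjective' q Ideal.Quotient.mk_surjective
    have : IsNoetherianRing (R ⧸ Ideal.span {y}) :=
      isNoetherianRing_of_surjective R _ q Ideal.Quotient.mk_surjective
    have hmap : (maximalIdeal R).map q = maximalIdeal (R ⧸ Ideal.span {y}) := by
      rcases Ideal.map_eq_top_or_isMaximal_of_surjective q Ideal.Quotient.mk_surjective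
        (maximalIdeal.isMaximal R) with h | h
      · exfalso
        have hk : RingHom.ker q ≤ maximalIdeal R := by
          rw [Ideal.mk_ker]; exact (Ideal.span_singleton_le_iff_mem _).mpr hy
        have := Ideal.comap_map_of_surjective' q Ideal.Quotient.mk_surjective (maximalIdeal R)
        rw [h, Ideal.comap_top, sup_eq_left.mpr hk] at this
        exact (maximalIdeal.isMaximal R).ne_top this.symm
      · exact eq_maximalIdeal h
    have hspan' : Ideal.span (((s.erase i).image q : Finset _) : Set (R ⧸ Ideal.span {y})) =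
        maximalIdeal (R ⧸ Ideal.span {y}) := by
      rw [← hmap, ← hspan, Ideal.map_span, Set.image_insert_eq, Finset.coe_image]
      have : q y = 0 := Ideal.Quotient.eq_zero_iff_mem.mpr (Ideal.mem_span_singleton_self y)
      rw [this, Ideal.span_insert_zero]
    have hcard' : ((s.erase i).image q).card ≤ n :=
      Finset.card_image_le.trans (by rw [Finset.card_erase_of_mem hi]; omega)
    have : Module.Finite (R ⧸ Ideal.span {y}) (QuotSMulTop y M) :=
      Module.Finite.of_restrictScalars_finite R _ _
    have hfree := ih (R ⧸ Ideal.span {y}) (QuotSMulTop y M) _ hcard' hspan' (rs'.map q)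
      (by simpa using hlen')
      (by
        intro r hr
        obtain ⟨r', hr', rfl⟩ := List.mem_map.mp hr
        exact hmap ▸ Ideal.mem_map_of_mem q (hmem' r' hr'))
      ((isWeaklyRegular_map_algebraMap_iff (R ⧸ Ideal.span {y}) _ rs').mpr hreg'.toIsWeaklyRegular)
    have : Module.FinitePresentation R M := Module.finitePresentation_of_finite R M
    exact (Module.free_quotSMulTop_iff_free R M (maximalIdeal_le_jacobson _ hy) hyreg).mp hfree

end FLTAgent.CommAlg
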