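import Fermat.Prelude.Def_EllipticCurve_FrobeniusTrace
import Mathlib.RingTheory.Invariant.Profinite
import Mathlib.FieldTheory.Galois.Profinite
import Mathlib.FieldTheory.Galois.Infinite
import Mathlib.FieldTheory.IsAlgClosed.AlgebraicClosure
import Mathlib.RingTheory.Valuation.LocalSubring
import Mathlib.RingTheory.Polynomial.Content

/-!
# Frobenius elements in the absolute Galois group of `ℚ`

For every valuation subring of `ℚ̄` lying over a prime `l` there is an element of the absolute
Galois group which is a Frobenius element at it.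
-/

set_option autoImplicit false

namespace FLTAgent.CommAlg

open Polynomial

local notation "Qbar" => AlgebraicClosure ℚ
local notation "Gbar" => AlgebraicClosure ℚ ≃ₐ[ℚ] AlgebraicClosure ℚ
local notation "Zbar" => integralClosure ℤ (AlgebraicClosure ℚ)

local instance isAlgebraicQbarFrob : Algebra.IsAlgebraic ℚ Qbar :=
  AlgebraicClosure.isAlgebraic ℚ

local instance isAlgClosureQbarFrob : IsAlgClosure ℚ Qbar := ⟨inferInstance, inferInstance⟩

local instance normalQbarFrob : Normal ℚ Qbar := IsAlgClosure.normal ℚ Qbar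

local instance isGaloisQbarFrob : IsGalois ℚ Qbar where

theorem mem_of_isIntegral_int (A : ValuationSubring Qbar) {x : Qbar} (hx : IsIntegral ℤ x) :
    x ∈ A := by
  obtain ⟨a, ha⟩ := IsIntegrallyClosed.algebraMap_eq_of_integral (R := A) (K := Qbar)
    (hx.tower_top (A := A))
  exact ha ▸ a.2

theorem exists_valuationSubring_liesOverPrime {l : ℕ} (hl : l.Prime) :
    ∃ A : ValuationSubring Qbar, A.LiesOverPrime l := by
  let I : Ideal (Zbar).toSubring := Ideal.span {(l : (Zbar).toSubring)}
  have hI : I ≠ ⊤ := by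
    intro h
    rw [Ideal.span_singleton_eq_top, isUnit_iff_exists_inv] at h
    obtain ⟨b, hb⟩ := h
    have h1 : (l : Qbar) * (b : Qbar) = 1 := by simpa using congrArg Subtype.val hb
    have hb' : IsIntegral ℤ (b : Qbar) := b.2
    have h2 : (b : Qbar) = algebraMap ℚ Qbar ((l : ℚ)⁻¹) := by
      rw [map_inv₀, map_natCast]
      exact eq_inv_of_mul_eq_one_right h1
    rw [h2, isIntegral_algebraMap_iff (algebraMap ℚ Qbar).injective] at hb'
    obtain ⟨n, hn⟩ := IsIntegrallyClosed.algebraMap_eq_of_integral hb'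
    have : ((n * l : ℤ) : ℚ) = 1 := by
      push_cast
      rw [show (n : ℚ) = (l : ℚ)⁻¹ from hn, inv_mul_cancel₀ (by exact_mod_cast hl.ne_zero)]
    have : (n * l : ℤ) = 1 := by exact_mod_cast this
    have h3 : (l : ℤ) ∣ 1 := ⟨n, by rw [mul_comm, this]⟩
    exact hl.one_lt.ne' (Nat.dvd_one.mp (by exact_mod_cast h3))
  obtain ⟨A, -, hA⟩ := Ideal.image_subset_nonunits_valuationSubring I hI
  exact ⟨A, hA ⟨_, Ideal.subset_span rfl, by simp⟩⟩

/-- The inclusion of the algebraic integers into a valuation subring. -/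
def toValuationSubring (A : ValuationSubring Qbar) : Zbar →+* A where
  toFun b := ⟨b, mem_of_isIntegral_int A b.2⟩
  map_one' := rfl
  map_mul' _ _ := rfl
  map_zero' := rfl
  map_add' _ _ := rfl

/-- The centre of a valuation subring on the algebraic integers. -/
noncomputable def centre (A : ValuationSubring Qbar) : Ideal Zbar :=
  (IsLocalRing.maximalIdeal A).comap (toValuationSubring A)

theorem mem_centre (A : ValuationSubring Qbar) (b : Zbar) :
    b ∈ centre A ↔ (b : Qbar) ∈ A.nonunits :=
  (ValuationSubring.coe_mem_nonunits_iff (a := toValuationSubring A b)).symm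

instance (A : ValuationSubring Qbar) : (centre A).IsPrime := Ideal.IsPrime.comap _

/-- If `x` is a root of a polynomial over the algebraic integers not all of whose coefficients lie
in the prime `Q`, then `x` or `x⁻¹` lies in the localization at `Q`. -/
theorem exists_mul_eq_of_aeval_eq_zero (Q : Ideal Zbar) [Q.IsPrime] (x : Qbar) :
    ∀ (n : ℕ) (p : (Zbar)[X]), p.natDegree ≤ n → aeval x p = 0 → (∃ i, p.coeff i ∉ Q) →
      ∃ b c : Zbar, c ∉ Q ∧ ((c : Qbar) * x = b ∨ (c : Qbar) = b * x) := by
  intro n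
  induction n with
  | zero =>
    intro p hp hx ⟨i, hi⟩
    rw [Polynomial.eq_C_of_natDegree_le_zero hp] at hx hi
    rw [aeval_C, map_eq_zero_iff _ (FaithfulSMul.algebraMap_injective Zbar Qbar)] at hx
    simp [hx] at hi
  | succ n ih =>
    intro p hp hx hex
    rcases Nat.lt_or_eq_of_le hp with hlt | heq
    · exact ih p (Nat.lt_succ_iff.mp hlt) hx hex
    have hy' : IsIntegral Zbar (p.leadingCoeff • x) := isIntegral_leadingCoeff_smul p x hx
    have hy : IsIntegral ℤ (p.leadingCoeff • x) := isIntegral_trans _ hy'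
    let y : Zbar := ⟨p.leadingCoeff • x, hy⟩
    have hyx : (p.leadingCoeff : Qbar) * x = y := rfl
    by_cases ha : p.leadingCoeff ∈ Q
    swap
    · exact ⟨y, p.leadingCoeff, ha, Or.inl hyx⟩
    by_cases hyQ : y ∈ Q
    swap
    · exact ⟨p.leadingCoeff, y, hyQ, Or.inr hyx.symm⟩
    refine ih (p.eraseLead + C y * X ^ n) ?_ ?_ ?_
    · refine natDegree_add_le_of_degree_le ?_ ((natDegree_C_mul_X_pow_le _ _))
      have := eraseLead_natDegree_le p
      omega
    · have h := hx
      rw [← eraseLead_add_C_mul_X_pow p, heq] at h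
      rw [map_add, map_mul, aeval_C, map_pow, aeval_X] at h ⊢
      rw [show algebraMap Zbar Qbar y = (p.leadingCoeff : Qbar) * x from hyx.symm]
      rw [pow_succ'] at h
      change _ + (p.leadingCoeff : Qbar) * _ = 0 at h
      linear_combination h
    · obtain ⟨i, hi⟩ := hex
      refine ⟨i, fun h => hi ?_⟩
      have hne : i ≠ p.natDegree := fun e => hi (e ▸ ha)
      rw [coeff_add, eraseLead_coeff_of_ne i hne, coeff_C_mul_X_pow] at h
      split at h
      · simpa using Q.sub_mem h hyQ
      · simpa using h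

/-- `ℚ̄` is the union of the localization of the algebraic integers at `Q` and of the inverses of
its elements, for `Q` a prime above `l`. -/
theorem exists_mul_eq (Q : Ideal Zbar) [Q.IsPrime] {l : ℕ} (hl : l.Prime) (hlQ : (l : Zbar) ∈ Q)
    (x : Qbar) : ∃ b c : Zbar, c ∉ Q ∧ ((c : Qbar) * x = b ∨ (c : Qbar) = b * x) := by
  have halg : IsAlgebraic ℤ x :=
    (IsFractionRing.isAlgebraic_iff ℤ ℚ Qbar).mpr (Algebra.IsAlgebraic.isAlgebraic x)
  obtain ⟨p, hp, hpx⟩ := halg
  have hpp : aeval x p.primPart = 0 := aeval_primPart_eq_zero hp hpx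
  obtain ⟨i, hi⟩ : ∃ i, ¬ (l : ℤ) ∣ p.primPart.coeff i := by
    by_contra h
    push Not at h
    have h1 : IsUnit (l : ℤ) := p.isPrimitive_primPart _ (C_dvd_iff_dvd_coeff _ _ |>.mpr h)
    rw [Int.isUnit_iff_natAbs_eq, Int.natAbs_natCast] at h1
    exact hl.one_lt.ne' h1
  refine exists_mul_eq_of_aeval_eq_zero Q x _ (p.primPart.map (algebraMap ℤ Zbar)) le_rfl
    (by rw [aeval_map_algebraMap]; exact hpp) ⟨i, ?_⟩
  rw [coeff_map]
  intro hmem
  apply hi
  by_contra hnd
  have hco : IsCoprime (l : ℤ) (p.primPart.coeff i) :=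
    (Nat.prime_iff_prime_int.mp hl).coprime_iff_not_dvd.mpr hnd
  obtain ⟨u, v, huv⟩ := hco
  apply Ideal.IsPrime.ne_top ‹Q.IsPrime›
  rw [Ideal.eq_top_iff_one, ← map_one (algebraMap ℤ Zbar), ← huv, map_add, map_mul, map_mul,
    map_natCast]
  exact Q.add_mem (Q.mul_mem_left _ hlQ) (Q.mul_mem_left _ hmem)

/-- The action of the Galois group on the algebraic integers. -/
@[reducible] noncomputable def galActionInt : MulSemiringAction Gbar Zbar where
  smul σ b := ⟨σ (b : Qbar), b.2.map σ.toAlgHom⟩
  one_smul _ := rfl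
  mul_smul _ _ _ := rfl
  smul_zero σ := Subtype.ext (map_zero σ)
  smul_add σ _ _ := Subtype.ext (map_add σ _ _)
  smul_one σ := Subtype.ext (map_one σ)
  smul_mul σ _ _ := Subtype.ext (map_mul σ _ _)

open scoped Pointwise in
/-- There is a Galois automorphism stabilising `Q` and acting as the `l`-th power modulo `Q`. -/
theorem exists_frobenius_on_int (Q : Ideal Zbar) [Q.IsPrime] {l : ℕ} (hl : l.Prime)
    (hlQ : (l : Zbar) ∈ Q) :
    ∃ σ : Gbar, (∀ b b' : Zbar, (b' : Qbar) = σ (b : Qbar) → b' - b ^ l ∈ Q) ∧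
      (∀ b b' : Zbar, (b' : Qbar) = σ (b : Qbar) → (b' ∈ Q ↔ b ∈ Q)) := by
  let : MulSemiringAction Gbar Zbar := galActionInt
  let : TopologicalSpace Zbar := ⊥
  have : DiscreteTopology Zbar := ⟨rfl⟩
  have : SMulCommClass Gbar ℤ Zbar :=
    ⟨fun σ n b => Subtype.ext (map_zsmul σ n (b : Qbar))⟩
  have : ContinuousSMul Gbar Zbar := by
    rw [continuousSMul_iff_stabilizer_isOpen]
    intro b
    convert! stabilizer_isOpen_of_isIntegral (K := ℚ) (b : Qbar) using 1
    ext σ
    exact Subtype.ext_iff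
  have : Algebra.IsInvariant ℤ Zbar Gbar := by
    refine ⟨fun b hb => ?_⟩
    obtain ⟨q, hq⟩ := (InfiniteGalois.mem_range_algebraMap_iff_fixed (k := ℚ) (b : Qbar)).mpr
      fun σ => congrArg Subtype.val (hb σ)
    have hbi : IsIntegral ℤ (b : Qbar) := b.2
    rw [← hq, isIntegral_algebraMap_iff (algebraMap ℚ Qbar).injective] at hbi
    obtain ⟨n, hn⟩ := IsIntegrallyClosed.algebraMap_eq_of_integral hbi
    exact ⟨n, Subtype.ext (by rw [← hq, ← hn]; simp)⟩
  have : Fact l.Prime := ⟨hl⟩
  have : Algebra.IsIntegral ℤ Zbar :=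
    Algebra.IsInvariant.isIntegral_of_profinite (G := Gbar)
  let P : Ideal ℤ := Q.under ℤ
  have hPl : (l : ℤ) ∈ P := by
    show algebraMap ℤ Zbar (l : ℤ) ∈ Q
    rwa [map_natCast]
  have hP : P.IsMaximal :=
    (inferInstance : P.IsPrime).isMaximal fun h =>
      hl.ne_zero (by exact_mod_cast (Ideal.mem_bot.mp (h ▸ hPl)))
  have : Q.IsMaximal := Ideal.isMaximal_of_isIntegral_of_isMaximal_comap Q hP
  have : CharP (Zbar ⧸ Q) l := by
    refine (CharP.charP_iff_prime_eq_zero hl).mpr ?_
    rw [← map_natCast (Ideal.Quotient.mk Q), Ideal.Quotient.eq_zero_iff_mem]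
    exact hlQ
  let := Ideal.Quotient.field Q
  have hsurj : Function.Surjective (frobenius (Zbar ⧸ Q) l) := by
    intro z
    obtain ⟨b, rfl⟩ := Ideal.Quotient.mk_surjective z
    obtain ⟨r, hr⟩ := IsAlgClosed.exists_pow_nat_eq (b : Qbar) hl.pos
    refine ⟨Ideal.Quotient.mk Q ⟨r, IsIntegral.of_pow hl.pos (hr ▸ b.2)⟩, ?_⟩
    rw [frobenius_def, ← map_pow]
    exact congrArg _ (Subtype.ext hr)
  let e : (Zbar ⧸ Q) ≃ₐ[ℤ ⧸ P] (Zbar ⧸ Q) :=
    AlgEquiv.ofRingEquiv (f := RingEquiv.ofBijective (frobenius (Zbar ⧸ Q) l)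
      ⟨(frobenius (Zbar ⧸ Q) l).injective, hsurj⟩) fun z => by
        obtain ⟨n, rfl⟩ := Ideal.Quotient.mk_surjective z
        rw [eq_intCast (Ideal.Quotient.mk P) n, map_intCast, map_intCast]
  obtain ⟨⟨σ, hσ⟩, hσe⟩ :=
    Ideal.Quotient.stabilizerHom_surjective_of_profinite (G := Gbar) P Q e
  refine ⟨σ, fun b b' hb' => ?_, fun b b' hb' => ?_⟩
  · obtain rfl : b' = σ • b := Subtype.ext hb'
    have := AlgEquiv.congr_fun hσe (Ideal.Quotient.mk Q b)
    rw [← Ideal.Quotient.eq, map_pow]
    exact this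
  · obtain rfl : b' = σ • b := Subtype.ext hb'
    have h := (Ideal.smul_mem_pointwise_smul_iff (a := σ) (S := Q) (x := b))
    rwa [MulAction.mem_stabilizer_iff.mp hσ] at h

open scoped Pointwise in
/-- For every valuation subring of `ℚ̄` above `l` there is a Frobenius element at it. -/
theorem exists_isFrobeniusAt {l : ℕ} (hl : l.Prime) {A : ValuationSubring Qbar}
    (hA : A.LiesOverPrime l) : ∃ σ : Gbar, A.IsFrobeniusAt σ l := by
  have hlQ : (l : Zbar) ∈ centre A := by rw [mem_centre]; simpa [ValuationSubring.LiesOverPrime] using hA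
  obtain ⟨σ, hfrob, hstab⟩ := exists_frobenius_on_int (centre A) hl hlQ
  have hu : ∀ c : Zbar, c ∉ centre A → IsUnit (toValuationSubring A c) := fun c hc =>
    IsLocalRing.notMem_maximalIdeal.mp hc
  have hint : ∀ b : Zbar, IsIntegral ℤ (σ (b : Qbar)) := fun b => b.2.map σ.toAlgHom
  -- every element of `A` is a fraction with denominator outside the centre
  have hfrac : ∀ x : A, ∃ b c : Zbar, c ∉ centre A ∧ (c : Qbar) * x = b := by
    intro x
    obtain ⟨b, c, hc, h | h⟩ := exists_mul_eq (centre A) hl hlQ (x : Qbar)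
    · exact ⟨b, c, hc, h⟩
    · refine ⟨c, b, fun hb => hc ?_, h.symm⟩
      have : toValuationSubring A c = toValuationSubring A b * x := Subtype.ext h
      show toValuationSubring A c ∈ IsLocalRing.maximalIdeal A
      rw [this]
      exact Ideal.mul_mem_right _ _ hb
  have hmem : ∀ x : Qbar, x ∈ A ↔ σ x ∈ A := by
    intro x
    obtain ⟨b, c, hc, h | h⟩ := exists_mul_eq (centre A) hl hlQ x
    · have hc' : (⟨σ c, hint c⟩ : Zbar) ∉ centre A := fun h' => hc ((hstab c _ rfl).mp h')
      have e : σ x = ((toValuationSubring A ⟨σ b, hint b⟩ * (hu _ hc').unit⁻¹ : A) : Qbar) := by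
        have h1 : toValuationSubring A ⟨σ c, hint c⟩ * ((hu _ hc').unit⁻¹ : Aˣ) = 1 :=
          (hu _ hc').mul_val_inv
        have h2 : σ (c : Qbar) * σ x = σ (b : Qbar) := by rw [← map_mul, h]
        have h3 := congrArg Subtype.val h1
        change σ (c : Qbar) * _ = 1 at h3
        change σ x = σ (b : Qbar) * _
        linear_combination -(σ x) * h3 + ((((hu _ hc').unit⁻¹ : Aˣ) : A) : Qbar) * h2
      have e' : x = ((toValuationSubring A b * (hu _ hc).unit⁻¹ : A) : Qbar) := by
        have h3 := congrArg Subtype.val (hu _ hc).mul_val_inv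
        change (c : Qbar) * _ = 1 at h3
        change x = (b : Qbar) * _
        linear_combination -x * h3 + ((((hu _ hc).unit⁻¹ : Aˣ) : A) : Qbar) * h
      exact iff_of_true (e' ▸ SetLike.coe_mem _) (e ▸ SetLike.coe_mem _)
    · by_cases hb : b ∈ centre A
      · refine iff_of_false (fun hx => hc ?_) (fun hx => hc ?_)
        · have : toValuationSubring A c = toValuationSubring A b * ⟨x, hx⟩ := Subtype.ext h
          show toValuationSubring A c ∈ IsLocalRing.maximalIdeal A
          rw [this]
          exact Ideal.mul_mem_right _ _ hb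
        · refine (hstab c ⟨σ c, hint c⟩ rfl).mp ?_
          have hb' : (⟨σ b, hint b⟩ : Zbar) ∈ centre A := (hstab b _ rfl).mpr hb
          have : toValuationSubring A ⟨σ c, hint c⟩ =
              toValuationSubring A ⟨σ b, hint b⟩ * ⟨σ x, hx⟩ :=
            Subtype.ext (show σ (c : Qbar) = σ (b : Qbar) * σ x by rw [← map_mul, ← h])
          show toValuationSubring A ⟨σ c, hint c⟩ ∈ IsLocalRing.maximalIdeal A
          rw [this]
          exact Ideal.mul_mem_right _ _ hb'
      · have hb' : (⟨σ b, hint b⟩ : Zbar) ∉ centre A := fun h' => hb ((hstab b _ rfl).mp h')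
        have e : σ x = ((toValuationSubring A ⟨σ c, hint c⟩ * (hu _ hb').unit⁻¹ : A) : Qbar) := by
          have h3 := congrArg Subtype.val (hu _ hb').mul_val_inv
          change σ (b : Qbar) * _ = 1 at h3
          change σ x = σ (c : Qbar) * _
          rw [h, map_mul]
          linear_combination -(σ x) * h3
        have e' : x = ((toValuationSubring A c * (hu _ hb).unit⁻¹ : A) : Qbar) := by
          have h3 := congrArg Subtype.val (hu _ hb).mul_val_inv
          change (b : Qbar) * _ = 1 at h3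
          change x = (c : Qbar) * _
          rw [h]
          linear_combination -x * h3
        exact iff_of_true (e' ▸ SetLike.coe_mem _) (e ▸ SetLike.coe_mem _)
  have hdec : σ ∈ A.decompositionSubgroup ℚ := by
    rw [MulAction.mem_stabilizer_iff]
    refine SetLike.ext fun x => ?_
    rw [ValuationSubring.mem_smul_pointwise_iff_exists]
    constructor
    · rintro ⟨y, hy, rfl⟩
      exact (hmem y).mp hy
    · intro hx
      exact ⟨σ.symm x, (hmem _).mpr (by rwa [AlgEquiv.apply_symm_apply]), σ.apply_symm_apply x⟩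
  refine ⟨σ, hdec, fun z => ?_⟩
  obtain ⟨x, rfl⟩ := IsLocalRing.residue_surjective z
  obtain ⟨b, c, hc, h⟩ := hfrac x
  let res : Zbar →+* IsLocalRing.ResidueField A :=
    (IsLocalRing.residue A).comp (toValuationSubring A)
  have key : ∀ b : Zbar, res ⟨σ b, hint b⟩ = res b ^ l := fun b => by
    rw [← map_pow, ← sub_eq_zero, ← map_sub]
    exact (IsLocalRing.residue_eq_zero_iff _).mpr (hfrob b _ rfl)
  have hmul : res c * IsLocalRing.residue A x = res b := by
    show IsLocalRing.residue A (toValuationSubring A c) * _ = _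
    rw [← map_mul]
    exact congrArg (IsLocalRing.residue A) (Subtype.ext h)
  have hcne : res c ≠ 0 := fun h0 => hc ((IsLocalRing.residue_eq_zero_iff _).mp h0)
  let g : A.decompositionSubgroup ℚ := ⟨σ, hdec⟩
  have hmul' : res ⟨σ c, hint c⟩ * IsLocalRing.residue A (g • x) = res ⟨σ b, hint b⟩ := by
    show IsLocalRing.residue A (toValuationSubring A _) * _ = _
    rw [← map_mul]
    exact congrArg (IsLocalRing.residue A) (Subtype.ext
      (show σ (c : Qbar) * σ (x : Qbar) = σ (b : Qbar) by rw [← map_mul, h]))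
  show g • IsLocalRing.residue A x = _
  rw [← IsLocalRing.ResidueField.residue_smul]
  rw [key, key, ← hmul, mul_pow] at hmul'
  exact mul_left_cancel₀ (pow_ne_zero _ hcne) hmul'

/-- Existence of a place above `l` together with a Frobenius element. -/
theorem exists_liesOverPrime_isFrobeniusAt {l : ℕ} (hl : l.Prime) :
    ∃ A : ValuationSubring Qbar, A.LiesOverPrime l ∧ ∃ σ : Gbar, A.IsFrobeniusAt σ l := by
  obtain ⟨A, hA⟩ := exists_valuationSubring_liesOverPrime hl
  exact ⟨A, hA, exists_isFrobeniusAt hl hA⟩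

end FLTAgent.CommAlg
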