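import Mathlib.RingTheory.MvPowerSeries.Inverse
import Mathlib.RingTheory.Regular.RegularSequence
import Mathlib.RingTheory.DiscreteValuationRing.Basic

/-!
# The ideals generated by the first variables of a power series ring

`X 0, ..., X (r-1), C ϖ` is a weakly regular sequence on `MvPowerSeries (Fin r) R` when `ϖ` is
regular on `R`, and it generates the maximal ideal when `ϖ` generates that of `R`.
-/

set_option autoImplicit false

namespace FLTAgent.CommAlg

open MvPowerSeries Finsupp

variable {R : Type*} [CommRing R] {r : ℕ}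

/-- The ideal generated by the variables of index `< i`. -/
noncomputable def varsIdeal (R : Type*) [CommRing R] (r i : ℕ) : Ideal (MvPowerSeries (Fin r) R) :=
  Ideal.span (X '' {j : Fin r | (j : ℕ) < i})

/-- An exponent not involving the variables of index `< i`. -/
def SuppGe (i : ℕ) (n : Fin r →₀ ℕ) : Prop := ∀ j : Fin r, (j : ℕ) < i → n j = 0

theorem coeff_X_mul_single_add (j : Fin r) (n : Fin r →₀ ℕ) (g : MvPowerSeries (Fin r) R) :
    coeff (single j 1 + n) (X j * g) = coeff n g := by
  rw [X_def, coeff_add_monomial_mul, one_mul]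

theorem coeff_X_mul_of_eq_zero (j : Fin r) (n : Fin r →₀ ℕ) (hn : n j = 0)
    (g : MvPowerSeries (Fin r) R) : coeff n (X j * g) = 0 := by
  classical
  rw [X_def, coeff_monomial_mul, if_neg]
  intro h
  have := h j
  simp [hn] at this

theorem exists_split (j : Fin r) (f : MvPowerSeries (Fin r) R) :
    ∃ g f' : MvPowerSeries (Fin r) R, f = X j * g + f' ∧
      (∀ n : Fin r →₀ ℕ, n j = 0 → coeff n f' = coeff n f) ∧
      (∀ n : Fin r →₀ ℕ, n j ≠ 0 → coeff n f' = 0) := by
  let g : MvPowerSeries (Fin r) R := fun n => coeff (single j 1 + n) f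
  refine ⟨g, f - X j * g, by ring, fun n hn => ?_, fun n hn => ?_⟩
  · rw [map_sub, coeff_X_mul_of_eq_zero j n hn, sub_zero]
  · obtain ⟨m, rfl⟩ : ∃ m, n = single j 1 + m :=
      ⟨n - single j 1, (add_tsub_cancel_of_le
        (Finsupp.single_le_iff.mpr (Nat.one_le_iff_ne_zero.mpr hn))).symm⟩
    rw [map_sub, coeff_X_mul_single_add]
    exact sub_eq_zero.mpr rfl

theorem mem_varsIdeal_iff (i : ℕ) (hi : i ≤ r) (f : MvPowerSeries (Fin r) R) :
    f ∈ varsIdeal R r i ↔ ∀ n : Fin r →₀ ℕ, SuppGe i n → coeff n f = 0 := by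
  constructor
  · intro hf n hn
    induction hf using Submodule.span_induction generalizing n with
    | mem x hx =>
      obtain ⟨j, hj, rfl⟩ := hx
      simpa using coeff_X_mul_of_eq_zero j n (hn j hj) (1 : MvPowerSeries (Fin r) R)
    | zero => simp
    | add x y _ _ hx hy => rw [map_add, hx n hn, hy n hn, add_zero]
    | smul c x _ hx =>
      classical
      rw [smul_eq_mul, coeff_mul]
      refine Finset.sum_eq_zero fun p hp => ?_
      rw [hx p.2 fun j hj => ?_, mul_zero]
      have := congrArg (fun m : Fin r →₀ ℕ => m j) (Finset.HasAntidiagonal.mem_antidiagonal.mp hp)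
      simp only [Finsupp.add_apply, hn j hj] at this
      omega
  · induction i generalizing f with
    | zero =>
      intro h
      have : f = 0 := MvPowerSeries.ext fun n => by
        rw [coeff_zero]; exact h n fun j hj => absurd hj (Nat.not_lt_zero _)
      simp [this]
    | succ i ih =>
      intro h
      obtain ⟨g, f', rfl, hf₀, hf₁⟩ := exists_split (⟨i, hi⟩ : Fin r) f
      refine Ideal.add_mem _ ?_ ?_
      · exact Ideal.mul_mem_right _ _ (Ideal.subset_span ⟨⟨i, hi⟩, Nat.lt_succ_self i, rfl⟩)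
      · have hmono : varsIdeal R r i ≤ varsIdeal R r (i + 1) :=
          Ideal.span_mono (Set.image_mono fun j (hj : (j : ℕ) < i) => Nat.lt_succ_of_lt hj)
        refine hmono (ih (Nat.le_of_succ_le hi) _ fun n hn => ?_)
        by_cases hni : n ⟨i, hi⟩ = 0
        · rw [hf₀ n hni]
          refine h n fun j hj => ?_
          rcases Nat.lt_or_eq_of_le (Nat.lt_succ_iff.mp hj) with hj' | hj'
          · exact hn j hj'
          · rwa [show j = ⟨i, hi⟩ from Fin.ext hj']
        · exact hf₁ n hni

theorem sub_C_mem_varsIdeal (f : MvPowerSeries (Fin r) R) :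
    f - C (constantCoeff f) ∈ varsIdeal R r r := by
  rw [mem_varsIdeal_iff r le_rfl]
  intro n hn
  obtain rfl : n = 0 := Finsupp.ext fun j => hn j j.isLt
  simp [coeff_zero_eq_constantCoeff_apply]

/-- The sequence `X 0, ..., X (r-1), C ϖ`. -/
noncomputable def varsSeq (r : ℕ) (ϖ : R) : List (MvPowerSeries (Fin r) R) :=
  List.ofFn (fun j : Fin r => X j) ++ [C ϖ]

theorem length_varsSeq (r : ℕ) (ϖ : R) : (varsSeq r ϖ).length = r + 1 := by simp [varsSeq]

theorem ofList_take_varsSeq (ϖ : R) {i : ℕ} (hi : i ≤ r) :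
    Ideal.ofList ((varsSeq r ϖ).take i) = varsIdeal R r i := by
  rw [varsSeq, List.take_append_of_le_length (by simpa using hi)]
  refine congrArg Ideal.span ?_
  ext x
  simp only [Set.mem_ofPred_eq, Set.mem_image, List.mem_take_iff_getElem, List.getElem_ofFn,
    List.length_ofFn, lt_min_iff]
  exact ⟨fun ⟨j, hj, hx⟩ => ⟨⟨j, hj.2⟩, hj.1, hx⟩, fun ⟨j, hj, hx⟩ => ⟨j, ⟨hj, j.isLt⟩, hx⟩⟩

theorem isWeaklyRegular_varsSeq {ϖ : R} (hϖ : IsSMulRegular R ϖ) :
    RingTheory.Sequence.IsWeaklyRegular (MvPowerSeries (Fin r) R) (varsSeq r ϖ) := by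
  refine ⟨fun i hi => ?_⟩
  have hir : i ≤ r := by rw [length_varsSeq] at hi; omega
  have key : ∀ f, (varsSeq r ϖ)[i] * f ∈ varsIdeal R r i → f ∈ varsIdeal R r i := by
    intro f
    rw [mem_varsIdeal_iff i hir, mem_varsIdeal_iff i hir]
    intro h n hn
    rcases Nat.lt_or_eq_of_le hir with hlt | rfl
    · simp only [varsSeq, List.getElem_append_left (show i < (List.ofFn fun j : Fin r =>
        (X j : MvPowerSeries (Fin r) R)).length by simpa using hlt), List.getElem_ofFn] at h
      rw [← coeff_X_mul_single_add ⟨i, hlt⟩ n f]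
      refine h _ fun j hj => ?_
      have hne : j ≠ ⟨i, hlt⟩ := fun e => by simp [e] at hj
      simp [hn j hj, Finsupp.single_eq_of_ne hne]
    · simp only [varsSeq] at h
      have := h n hn
      rw [List.getElem_append_right (by simp)] at this
      simp only [List.length_ofFn, Nat.sub_self, List.getElem_cons_zero] at this
      rw [coeff_C_mul] at this
      exact hϖ.right_eq_zero_of_smul this
  rw [isSMulRegular_iff_right_eq_zero_of_smul]
  intro q
  obtain ⟨f, rfl⟩ := Submodule.Quotient.mk_surjective _ q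
  rw [← Submodule.Quotient.mk_smul, Submodule.Quotient.mk_eq_zero, Submodule.Quotient.mk_eq_zero,
    smul_eq_mul, smul_eq_mul, Ideal.mul_top, ofList_take_varsSeq ϖ hir]
  exact key f

theorem maximalIdeal_le_span_varsSeq [IsLocalRing R] {ϖ : R}
    (hϖ : IsLocalRing.maximalIdeal R = Ideal.span {ϖ}) :
    IsLocalRing.maximalIdeal (MvPowerSeries (Fin r) R) ≤
      Ideal.span (insert (C ϖ) (Set.range fun j : Fin r => X j)) := by
  intro f hf
  have hc : constantCoeff f ∈ IsLocalRing.maximalIdeal R := by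
    rw [IsLocalRing.mem_maximalIdeal, mem_nonunits_iff] at hf ⊢
    exact fun h => hf (MvPowerSeries.isUnit_iff_constantCoeff.mpr h)
  rw [hϖ, Ideal.mem_span_singleton] at hc
  obtain ⟨c, hc⟩ := hc
  have h := sub_C_mem_varsIdeal f
  have e : f = (f - C (constantCoeff f)) + C c * C ϖ := by
    rw [← map_mul, mul_comm c, ← hc]; ring
  rw [e]
  refine Ideal.add_mem _ ?_ (Ideal.mul_mem_left _ _ (Ideal.subset_span (Set.mem_insert _ _)))
  refine Ideal.span_mono ?_ h
  rintro x ⟨j, -, rfl⟩
  exact Set.mem_insert_of_mem _ ⟨j, rfl⟩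

end FLTAgent.CommAlg
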