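import Fermat.Prelude.Def_Algebra_PatchingDatum
import Fermat.Agent.CommAlg.DepthFree
import Fermat.Agent.CommAlg.PowerSeriesVars
import Mathlib.RingTheory.DiscreteValuationRing.Basic
import Mathlib.RingTheory.MvPowerSeries.Equiv

/-!
# Descent at a patched level with `J = ⊥`
-/

set_option autoImplicit false

namespace FLTAgent.CommAlg

open MvPowerSeries RingTheory.Sequence

variable {𝒪 : Type} [CommRing 𝒪] [IsDomain 𝒪] [IsDiscreteValuationRing 𝒪]
  {r : ℕ} {R : Type} [CommRing R] [Algebra 𝒪 R]
  {M : Type} [AddCommGroup M] [Module R M]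
  (L : Algebra.PatchingLevel 𝒪 r R M ⊥)

omit [IsDomain 𝒪] [IsDiscreteValuationRing 𝒪] in
theorem finite_patchingModule : Module.Finite (MvPowerSeries (Fin r) 𝒪) L.N := by
  refine Module.Finite.of_surjective
    (Fintype.linearCombination (MvPowerSeries (Fin r) 𝒪) L.b) fun x => ?_
  obtain ⟨c, hc⟩ := L.b_span x
  exact ⟨fun i => L.φ (c i), by rw [Fintype.linearCombination_apply, ← hc]⟩

theorem X_mem_maximalIdeal_of_patchingLevel [Nontrivial M] (i : Fin r) :
    L.φ (X i) ∈ IsLocalRing.maximalIdeal (MvPowerSeries (Fin r) 𝒪) := by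
  have : Nontrivial R := Module.nontrivial R M
  rw [IsLocalRing.mem_maximalIdeal, mem_nonunits_iff]
  intro h
  have := h.map L.ψ
  rw [L.ψ_φ_X] at this
  exact not_isUnit_zero this

/-- The coordinates with respect to `L.b`, as an additive equivalence. -/
noncomputable def patchingCoords :
    (Fin L.d → MvPowerSeries (Fin r) 𝒪) ≃+ L.N :=
  AddEquiv.ofBijective
    (AddMonoidHom.mk' (fun c : Fin L.d → MvPowerSeries (Fin r) 𝒪 => ∑ i, L.φ (c i) • L.b i)
      fun c c' => by simp only [Pi.add_apply, map_add, add_smul, Finset.sum_add_distrib])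
    ⟨by
      rw [injective_iff_map_eq_zero]
      intro c hc
      funext i
      exact Ideal.mem_bot.mp ((L.b_rel c).mp hc i),
    fun x => by obtain ⟨c, hc⟩ := L.b_span x; exact ⟨c, hc.symm⟩⟩

omit [IsDomain 𝒪] [IsDiscreteValuationRing 𝒪] in
theorem patchingCoords_smul (f : MvPowerSeries (Fin r) 𝒪)
    (c : Fin L.d → MvPowerSeries (Fin r) 𝒪) :
    patchingCoords L (f • c) = L.φ f • patchingCoords L c := by
  show ∑ i, L.φ (f * c i) • L.b i = L.φ f • ∑ i, L.φ (c i) • L.b i
  simp only [map_mul, Finset.smul_sum, mul_smul]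

theorem isWeaklyRegular_patchingModule {ϖ : 𝒪} (hϖ : ϖ ≠ 0) :
    IsWeaklyRegular L.N ((varsSeq r ϖ).map L.φ) := by
  have h₁ : IsWeaklyRegular (MvPowerSeries (Fin r) 𝒪) (varsSeq r ϖ) :=
    isWeaklyRegular_varsSeq (IsSMulRegular.of_ne_zero hϖ)
  have h₂ : IsWeaklyRegular
      (TensorProduct (MvPowerSeries (Fin r) 𝒪) (Fin L.d → MvPowerSeries (Fin r) 𝒪)
        (MvPowerSeries (Fin r) 𝒪)) (varsSeq r ϖ) :=
    h₁.isWeaklyRegular_lTensor
  have h₃ := ((TensorProduct.rid (MvPowerSeries (Fin r) 𝒪)
    (Fin L.d → MvPowerSeries (Fin r) 𝒪)).isWeaklyRegular_congr _).mp h₂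
  refine (AddEquiv.isWeaklyRegular_congr (e := patchingCoords L) ?_).mp h₃
  exact List.forall₂_map_right_iff.mpr (List.forall₂_same.mpr fun f _ x => patchingCoords_smul L f x)

theorem free_patchingModule [Nontrivial M] : Module.Free (MvPowerSeries (Fin r) 𝒪) L.N := by
  classical
  have := finite_patchingModule L
  obtain ⟨ϖ, hϖ⟩ := IsDiscreteValuationRing.exists_irreducible 𝒪
  have hmax := hϖ.maximalIdeal_eq
  have hC : L.φ (C ϖ) = C ϖ := L.φ.commutes ϖ
  refine free_of_isWeaklyRegular_of_span_eq (r + 1) (MvPowerSeries (Fin r) 𝒪) L.N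
    (insert (C ϖ) (Finset.univ.image fun j : Fin r => X j))
    ((Finset.card_insert_le _ _).trans
      (Nat.succ_le_succ (Finset.card_image_le.trans (by simp)))) ?_
    ((varsSeq r ϖ).map L.φ) (by simp [length_varsSeq]) ?_
    (isWeaklyRegular_patchingModule L hϖ.ne_zero)
  · rw [Finset.coe_insert, Finset.coe_image, Finset.coe_univ, Set.image_univ]
    refine le_antisymm ?_ (maximalIdeal_le_span_varsSeq hmax)
    rw [Ideal.span_le, Set.insert_subset_iff]
    refine ⟨?_, ?_⟩
    · rw [SetLike.mem_coe, IsLocalRing.mem_maximalIdeal, mem_nonunits_iff,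
        MvPowerSeries.isUnit_iff_constantCoeff, constantCoeff_C]
      exact hϖ.not_isUnit
    · rintro _ ⟨j, rfl⟩
      rw [SetLike.mem_coe, IsLocalRing.mem_maximalIdeal, mem_nonunits_iff,
        MvPowerSeries.isUnit_iff_constantCoeff, constantCoeff_X]
      exact not_isUnit_zero
  · intro f hf
    obtain ⟨g, hg, rfl⟩ := List.mem_map.mp hf
    rcases List.mem_append.mp hg with hg | hg
    · obtain ⟨j, rfl⟩ := (List.mem_ofFn).mp hg
      exact X_mem_maximalIdeal_of_patchingLevel L j
    · rw [List.mem_singleton] at hg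
      subst hg
      rw [hC, IsLocalRing.mem_maximalIdeal, mem_nonunits_iff,
        MvPowerSeries.isUnit_iff_constantCoeff, constantCoeff_C]
      exact hϖ.not_isUnit

theorem patching_descent [Nontrivial M] :
    Module.Free R M ∧ Module.annihilator R M = ⊥ ∧
      RingHom.ker L.ψ = Ideal.span (Set.range fun i : Fin r => L.φ (X i)) := by
  classical
  have := free_patchingModule L
  set I := Ideal.span (Set.range fun i : Fin r => L.φ (X i)) with hI
  let b := Module.Free.chooseBasis (MvPowerSeries (Fin r) 𝒪) L.N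
  have hrepr : ∀ x ∈ I • (⊤ : Submodule (MvPowerSeries (Fin r) 𝒪) L.N), ∀ j, b.repr x j ∈ I := by
    intro x hx j
    refine Submodule.smul_induction_on (p := fun x => b.repr x j ∈ I) hx ?_ ?_
    · intro f hf y _
      rw [map_smul, Finsupp.smul_apply, smul_eq_mul]
      exact Ideal.mul_mem_right _ _ hf
    · intro y z hy hz
      rw [map_add, Finsupp.add_apply]
      exact Ideal.add_mem _ hy hz
  have hne : Nonempty (Module.Free.ChooseBasisIndex (MvPowerSeries (Fin r) 𝒪) L.N) := by
    by_contra h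
    rw [not_nonempty_iff] at h
    have : Subsingleton L.N := b.repr.toEquiv.subsingleton
    exact not_subsingleton M L.π_surjective.subsingleton
  obtain ⟨j₀⟩ := hne
  have hker : RingHom.ker L.ψ = I := by
    refine le_antisymm (fun f hf => ?_) ?_
    · have hfx : f • b j₀ ∈ I • (⊤ : Submodule (MvPowerSeries (Fin r) 𝒪) L.N) := by
        rw [hI, ← L.ker_π, L.π_smul, RingHom.mem_ker.mp hf, zero_smul]
      simpa using hrepr _ hfx j₀
    · rw [hI, Ideal.span_le]
      rintro _ ⟨i, rfl⟩
      exact RingHom.mem_ker.mpr (L.ψ_φ_X i)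
  have hπ : ∀ l : Module.Free.ChooseBasisIndex (MvPowerSeries (Fin r) 𝒪) L.N →₀
      MvPowerSeries (Fin r) 𝒪,
      L.π (Finsupp.linearCombination _ b l) =
        Finsupp.linearCombination R (fun j => L.π (b j)) (l.mapRange L.ψ (map_zero _)) := by
    intro l
    rw [Finsupp.linearCombination_apply, Finsupp.linearCombination_apply,
      Finsupp.sum_mapRange_index (h := fun i a => a • L.π (b i)) (fun _ => zero_smul _ _),
      map_finsuppSum]
    exact Finsupp.sum_congr fun j _ => L.π_smul _ _
  have hfree : Module.Free R M := by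
    refine Module.Free.of_basis (Module.Basis.mk (v := fun j => L.π (b j)) ?_ ?_)
    · rw [linearIndependent_iff]
      intro l hl
      obtain ⟨l', rfl⟩ := Finsupp.mapRange_surjective L.ψ (map_zero _) L.ψ_surjective l
      rw [← hπ, L.ker_π] at hl
      ext j
      have := hrepr _ hl j
      rw [b.repr_linearCombination, ← hker, RingHom.mem_ker] at this
      rw [Finsupp.mapRange_apply, this, Finsupp.zero_apply]
    · rintro m -
      obtain ⟨x, rfl⟩ := L.π_surjective m
      rw [← b.linearCombination_repr x, hπ]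
      rw [← Finsupp.range_linearCombination]
      exact LinearMap.mem_range_self _ _
  refine ⟨hfree, ?_, hker⟩
  exact Module.annihilator_eq_bot.mpr inferInstance

end FLTAgent.CommAlg
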