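import Fermat.Prelude.Def_CuspForm_HeckeGaloisRepDatum
import Fermat.Prelude.Def_GaloisRep_DeformationRingData
import Mathlib.LinearAlgebra.Charpoly.BaseChange
import Mathlib.LinearAlgebra.Trace

/-!
# The universal map from a deformation ring onto a Hecke algebra
-/

set_option autoImplicit false

namespace FLTAgent.CommAlg

open Polynomial
open scoped TensorProduct

theorem trace_eq_of_charpoly_eq {A V : Type} [CommRing A] [Nontrivial A] [AddCommGroup V]
    [Module A V] [Module.Free A V] [Module.Finite A V] (hr : Module.finrank A V = 2)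
    {f : Module.End A V} {t d : A}
    (h : LinearMap.charpoly f = X ^ 2 - C t * X + C d) : LinearMap.trace A V f = t := by
  classical
  let b := Module.Free.chooseBasis A V
  have hcard : Fintype.card (Module.Free.ChooseBasisIndex A V) = 2 := by
    rw [← Module.finrank_eq_card_chooseBasisIndex, hr]
  have : Nonempty (Module.Free.ChooseBasisIndex A V) := Fintype.card_pos_iff.mp (by omega)
  rw [LinearMap.trace_eq_matrix_trace A b, Matrix.trace_eq_neg_charpoly_coeff, hcard,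
    LinearMap.charpoly_toMatrix, h]
  simp [coeff_X_pow, coeff_C]

theorem trace_baseChangeAlong {A B : Type} [CommRing A] [IsLocalRing A] [CommRing B]
    [IsLocalRing B] (φ : A →+* B) (hφ : IsLocalHom φ) (ρ : GaloisRepAdic A)
    (σ : AlgebraicClosure ℚ ≃ₐ[ℚ] AlgebraicClosure ℚ) :
    (ρ.baseChangeAlong φ hφ).trace σ = φ (ρ.trace σ) := by
  let : Algebra A B := φ.toAlgebra
  exact LinearMap.trace_baseChange (ρ.ρ σ) B

theorem trace_eq_of_isEquiv {A : Type} [CommRing A] [IsLocalRing A] {ρ₁ ρ₂ : GaloisRepAdic A}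
    (h : ρ₁.IsEquiv ρ₂) (σ : AlgebraicClosure ℚ ≃ₐ[ℚ] AlgebraicClosure ℚ) :
    ρ₁.trace σ = ρ₂.trace σ := by
  obtain ⟨e⟩ := h
  have : ρ₂.ρ σ = e.toLinearEquiv.conj (ρ₁.ρ σ) := by
    refine LinearMap.ext fun x => ?_
    rw [LinearEquiv.conj_apply_apply, e.map_apply, LinearEquiv.apply_symm_apply]
  rw [GaloisRepAdic.trace, GaloisRepAdic.trace, this, LinearMap.trace_conj']

theorem exists_surjective_algHom {𝒪 : Type} [CommRing 𝒪] [IsDomain 𝒪]
    [IsDiscreteValuationRing 𝒪] [IsAdicComplete (IsLocalRing.maximalIdeal 𝒪) 𝒪]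
    {ρbar : ResidualGaloisRep (IsLocalRing.ResidueField 𝒪)}
    {𝒟 : ∀ ⦃A : Type⦄ [CommRing A] [IsLocalRing A] [Algebra 𝒪 A], GaloisRepAdic A → Prop}
    (D : GaloisRep.DeformationRingData 𝒪 ρbar 𝒟) {N : ℕ} [NeZero N] {S : Set ℕ}
    {θ : CuspForm.heckeAlgebra N 2 S →+* IsLocalRing.ResidueField 𝒪} {T : Type} [CommRing T]
    [IsLocalRing T] [IsNoetherianRing T] [IsAdicComplete (IsLocalRing.maximalIdeal T) T]
    [Algebra 𝒪 T] [IsLocalHom (algebraMap 𝒪 T)] [Module.Finite 𝒪 T] [Module.Free 𝒪 T]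
    (H : CuspForm.HeckeGaloisRepDatum N S 𝒪 θ T) (hS : ∀ q : ℕ, q.Prime → q ∣ N → q ∈ S)
    (hfrob : ∀ l : ℕ, l.Prime → ∃ A : ValuationSubring (AlgebraicClosure ℚ), A.LiesOverPrime l ∧
      ∃ σ : AlgebraicClosure ℚ ≃ₐ[ℚ] AlgebraicClosure ℚ, A.IsFrobeniusAt σ l)
    (h𝒟 : 𝒟 H.ρ)
    (hres : H.ρ.residual.IsEquiv
      (ρbar.baseChangeAlong (IsLocalRing.ResidueField.map (algebraMap 𝒪 T)))) :
    ∃ φ : D.R →ₐ[𝒪] T, Function.Surjective φ ∧ ∃ hφ : IsLocalHom (φ : D.R →+* T),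
      (D.ρ.baseChangeAlong (φ : D.R →+* T) hφ).IsEquiv H.ρ := by
  obtain ⟨φ, ⟨hφ, heq⟩, -⟩ := D.universal T H.residue_surjective H.ρ h𝒟 hres
  refine ⟨φ, ?_, hφ, heq⟩
  have hgen : ∀ t : CuspForm.heckeAlgebra N 2 S, H.π t ∈ φ.range := by
    rintro ⟨x, hx⟩
    change x ∈ Algebra.adjoin ℤ (CuspForm.heckeGenerators N 2 S) at hx
    induction hx using Algebra.adjoin_induction with
    | mem x hx =>
      rcases hx with ⟨l, hl, hlN, hlS, rfl⟩ | ⟨q, hqN, hq, hqS, -⟩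
      · obtain ⟨A, hA, σ, hσ⟩ := hfrob l hl
        have h₁ : H.ρ.trace σ = H.π (CuspForm.heckeAlgebra.T hl hlN hlS) :=
          trace_eq_of_charpoly_eq H.ρ.finrank_eq (H.charpoly_frob l hl hlN hlS A hA σ hσ)
        rw [← trace_eq_of_isEquiv heq, trace_baseChangeAlong] at h₁
        exact ⟨D.ρ.trace σ, h₁⟩
      · exact absurd (hS q hq hqN) hqS
    | algebraMap n =>
      rw [show (⟨_, algebraMap_mem (CuspForm.heckeAlgebra N 2 S) n⟩ :
        CuspForm.heckeAlgebra N 2 S) = algebraMap ℤ _ n from rfl, eq_intCast, map_intCast]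
      exact intCast_mem _ n
    | add x y hx hy ihx ihy => exact map_add H.π ⟨x, hx⟩ ⟨y, hy⟩ ▸ add_mem ihx ihy
    | mul x y hx hy ihx ihy => exact map_mul H.π ⟨x, hx⟩ ⟨y, hy⟩ ▸ mul_mem ihx ihy
  intro t
  have : Algebra.adjoin 𝒪 (Set.range H.π) ≤ φ.range :=
    Algebra.adjoin_le (Set.range_subset_iff.mpr hgen)
  rw [H.adjoin_range_π] at this
  exact this (x := t) Algebra.mem_top

end FLTAgent.CommAlg
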